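import Fermat.Agent.Petersson.Reduced

set_option autoImplicit false

noncomputable section

namespace Fermat.Agent.Petersson

open UpperHalfPlane ModularForm MeasureTheory Matrix.SpecialLinearGroup CongruenceSubgroup
open Fermat.Agent.IntStr Fermat.Agent.Newform ModularFormClass CuspForm Fermat.Agent.Eigenform
open scoped MatrixGroups Modular ENNReal ModularForm ComplexConjugate

variable {N : ℕ} [NeZero N] {f : ℍ → ℂ}

theorem pet_self_re_nonneg (h : ℍ → ℝ≥0∞) (f : ℍ → ℂ) :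
    ∃ r : ℝ, 0 ≤ r ∧ pet h 2 f f = (r : ℂ) :=
  ⟨_, integral_nonneg fun z => by positivity, pet_self f⟩

theorem IsBd.sub {f g : ℍ → ℂ} (hf : IsBd f) (hg : IsBd g) : IsBd (f - g) := by
  refine ⟨hf.1.sub hg.1, ?_⟩
  obtain ⟨C, hC⟩ := hf.2
  obtain ⟨C', hC'⟩ := hg.2
  refine ⟨2 * (C + C'), fun z => ?_⟩
  have h1 := hC z
  have h2 := hC' z
  rw [petersson_self, Complex.norm_real, Real.norm_of_nonneg (by positivity)] at h1 h2 ⊢
  have h3 : ‖(f - g) z‖ ≤ ‖f z‖ + ‖g z‖ := norm_sub_le _ _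
  have h4 : ‖(f - g) z‖ ^ 2 ≤ 2 * (‖f z‖ ^ 2 + ‖g z‖ ^ 2) := by
    nlinarith [norm_nonneg ((f - g) z), norm_nonneg (f z), norm_nonneg (g z),
      sq_nonneg (‖f z‖ - ‖g z‖)]
  nlinarith [sq_nonneg z.im]

theorem IsBd.smul {f : ℍ → ℂ} (hf : IsBd f) (c : ℂ) : IsBd (c • f) := by
  refine ⟨hf.1.const_smul c, ?_⟩
  obtain ⟨C, hC⟩ := hf.2
  refine ⟨‖c‖ ^ 2 * C, fun z => ?_⟩
  have h1 := hC z
  rw [petersson_self, Complex.norm_real, Real.norm_of_nonneg (by positivity)] at h1 ⊢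
  rw [Pi.smul_apply, smul_eq_mul, norm_mul]
  calc (‖c‖ * ‖f z‖) ^ 2 * z.im ^ 2 = ‖c‖ ^ 2 * (‖f z‖ ^ 2 * z.im ^ 2) := by ring
    _ ≤ _ := by gcongr

theorem sq_eq_one_iff_of_ne_zero' {ε : ℂ} (h : ε ^ 2 = 1) : ε = 1 ∨ ε = -1 := by
  have h1 : (ε - 1) * (ε + 1) = 0 := by linear_combination h
  rcases mul_eq_zero.mp h1 with h | h
  · exact Or.inl (sub_eq_zero.mp h)
  · exact Or.inr (eq_neg_of_add_eq_zero_left h)

/-- Strict bound: `±(ℓ+1)` is not an eigenvalue of `T_ℓ` on cusp forms. -/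
theorem eq_zero_of_heckeT_eigen {ℓ : ℕ} (hℓ : ℓ.Prime) (hℓN : ¬ ℓ ∣ N)
    (hf : IsCF (Gamma0 N) 2 f) {ε : ℂ} (hε : ε ^ 2 = 1)
    (hT : heckeT 2 ℓ f = (ε * (ℓ + 1)) • f) : f = 0 := by
  have hεc : conj ε = ε := by
    rcases sq_eq_one_iff_of_ne_zero' hε with rfl | rfl <;> simp
  have hfb := isBd_of_cf hf
  set h := wtG (Gamma0 N) with hh
  have hw : IsWt (G0 N) h := isWt
  set G : Option (Fin ℓ) → ℍ → ℂ := fun i => f ∣[(2 : ℤ)] rT ℓ i - ε • f with hG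
  have hGb : ∀ i, IsBd (G i) := fun i => (hfb.slash _ (det_rT_pos hℓ i)).sub (hfb.smul ε)
  have hsumf : ∀ z, ∑ i, (f ∣[(2 : ℤ)] rT ℓ i) z = ε * (ℓ + 1) * f z := by
    intro z
    have := congrFun hT z
    rw [heckeT_eq_sum, Finset.sum_apply] at this
    rw [this]
    rfl
  have hcard : ∀ w : ℂ, ∑ _i : Option (Fin ℓ), w = (ℓ + 1) * w := by
    intro w
    rw [Finset.sum_const, Finset.card_univ, Fintype.card_option, Fintype.card_fin, nsmul_eq_mul]
    push_cast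
    ring
  have key : ∀ z, ∑ i, petersson 2 (G i) (G i) z =
      ∑ i, petersson 2 (f ∣[(2 : ℤ)] rT ℓ i) (f ∣[(2 : ℤ)] rT ℓ i) z -
        (ℓ + 1) * petersson 2 f f z := by
    intro z
    have h1 : ∀ i, petersson 2 (G i) (G i) z =
        petersson 2 (f ∣[(2 : ℤ)] rT ℓ i) (f ∣[(2 : ℤ)] rT ℓ i) z -
        ε * (conj ((f ∣[(2 : ℤ)] rT ℓ i) z) * (f z * (z.im : ℂ) ^ (2 : ℤ))) -
        ε * ((f ∣[(2 : ℤ)] rT ℓ i) z * (conj (f z) * (z.im : ℂ) ^ (2 : ℤ))) +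
        petersson 2 f f z := by
      intro i
      simp only [hG, petersson, Pi.sub_apply, Pi.smul_apply, smul_eq_mul, map_sub, map_mul, hεc]
      linear_combination (conj (f z) * f z * (z.im : ℂ) ^ (2 : ℤ)) * hε
    rw [Finset.sum_congr rfl fun i _ => h1 i]
    rw [Finset.sum_add_distrib, Finset.sum_sub_distrib, Finset.sum_sub_distrib, hcard,
      ← Finset.mul_sum, ← Finset.mul_sum, ← Finset.sum_mul, ← Finset.sum_mul, ← map_sum, hsumf]
    simp only [petersson, map_mul, hεc, map_add, map_natCast, map_one]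
    linear_combination (-2 * (ℓ + 1) * (conj (f z) * f z * (z.im : ℂ) ^ (2 : ℤ))) * hε
  have hint : ∀ i, Integrable fun z => ((h z).toReal : ℂ) * petersson 2 (G i) (G i) z := fun i =>
    pet_integrable hw (hGb i) (hGb i)
  have hzero : ∑ i, pet h 2 (G i) (G i) = 0 := by
    have e1 : ∑ i, pet h 2 (G i) (G i) =
        ∫ z, ((h z).toReal : ℂ) * ∑ i, petersson 2 (G i) (G i) z := by
      unfold pet
      rw [← integral_finsetSum _ (fun i _ => hint i)]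
      congr 1
      funext z
      rw [Finset.mul_sum]
    rw [e1]
    simp only [key, mul_sub]
    have hi1 : Integrable fun z => ((h z).toReal : ℂ) *
        ∑ i, petersson 2 (f ∣[(2 : ℤ)] rT ℓ i) (f ∣[(2 : ℤ)] rT ℓ i) z := by
      simp only [Finset.mul_sum]
      exact integrable_finsetSum _ fun i _ => pet_integrable hw
        (hfb.slash _ (det_rT_pos hℓ i)) (hfb.slash _ (det_rT_pos hℓ i))
    have hi2 : Integrable fun z => ((h z).toReal : ℂ) * ((ℓ + 1) * petersson 2 f f z) := by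
      have := (pet_integrable hw hfb hfb).const_mul ((ℓ : ℂ) + 1)
      refine this.congr ?_
      filter_upwards with z
      ring
    rw [integral_sub hi1 hi2, pet_sum_norm hw hℓ hℓN hf]
    unfold pet
    rw [← integral_const_mul, sub_eq_zero]
    congr 1
    funext z
    ring
  have hall : ∀ i, pet h 2 (G i) (G i) = 0 := by
    choose r hr hr' using fun i => pet_self_re_nonneg h (G i)
    have h1 : ∑ i, r i = 0 := by
      have : ((∑ i, r i : ℝ) : ℂ) = 0 := by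
        rw [Complex.ofReal_sum, ← hzero]
        exact Finset.sum_congr rfl fun i _ => (hr' i).symm
      exact_mod_cast this
    intro i
    have h2 := (Finset.sum_eq_zero_iff_of_nonneg (fun i _ => hr i)).mp h1 i (Finset.mem_univ i)
    rw [hr', h2, Complex.ofReal_zero]
  have hae : ∀ᵐ z : ℍ, ∀ γ : G0 N, ∀ i, h ((γ : GL (Fin 2) ℝ) • z) ≠ 0 →
      G i ((γ : GL (Fin 2) ℝ) • z) = 0 := by
    rw [ae_all_iff]
    intro γ
    rw [ae_all_iff]
    intro i
    exact (measurePreserving_smul (γ : GL (Fin 2) ℝ)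
      (volume : Measure ℍ)).quasiMeasurePreserving.ae (ae_of_pet_self hw (hGb i) (hall i))
  have hstab : ∀ γ ∈ G0 N, f ∣[(2 : ℤ)] γ = f := fun γ hγ => G0_le_stab hf hγ
  have hG0 : G none = 0 := by
    apply eq_zero_of_ae (hGb none).1
    filter_upwards [hae] with z hz
    obtain ⟨γ, hγ⟩ : ∃ γ : G0 N, h ((γ : GL (Fin 2) ℝ) • z) ≠ 0 := by
      by_contra hcon
      push Not at hcon
      have := hw.sum_eq z
      simp only [hcon, tsum_zero] at this
      exact zero_ne_one this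
    obtain ⟨a, b, c, d, hD⟩ := mem_G0_iff_Dset.mp ((G0 N).inv_mem γ.2)
    have hD2 := Dset_mul (Dset_heckeDiag (N := N) hℓ.ne_zero) hD
    rw [mul_one] at hD2
    obtain ⟨i, hi⟩ := T_cover hℓ hℓN hD2
    have h1 : f ∣[(2 : ℤ)] (heckeDiagMatrix ℓ * (γ : GL (Fin 2) ℝ)⁻¹) = f ∣[(2 : ℤ)] rT ℓ i := by
      have e : heckeDiagMatrix ℓ * (γ : GL (Fin 2) ℝ)⁻¹ =
        (heckeDiagMatrix ℓ * (γ : GL (Fin 2) ℝ)⁻¹ * (rT ℓ i)⁻¹) * rT ℓ i := by group
      rw [e, SlashAction.slash_mul, hstab _ hi]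
    have hdet : 0 < (((γ : GL (Fin 2) ℝ)⁻¹).det : ℝ) := (det_pos_of_Dset one_pos hD).2
    have h2 : (G none) ∣[(2 : ℤ)] (γ : GL (Fin 2) ℝ)⁻¹ = G i := by
      change (f ∣[(2 : ℤ)] heckeDiagMatrix ℓ - ε • f) ∣[(2 : ℤ)] (γ : GL (Fin 2) ℝ)⁻¹ = _
      rw [sub_eq_add_neg, SlashAction.add_slash, SlashAction.neg_slash, ModularForm.smul_slash,
        ← SlashAction.slash_mul, h1, hstab _ ((G0 N).inv_mem γ.2), sigma_of_det_pos hdet,
        ← sub_eq_add_neg]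
      rfl
    have h3 := congrFun h2 ((γ : GL (Fin 2) ℝ) • z)
    rw [hz γ i hγ, ModularForm.slash_def, sigma_of_det_pos hdet] at h3
    change G none ((γ : GL (Fin 2) ℝ)⁻¹ • ((γ : GL (Fin 2) ℝ) • z)) * _ * _ = 0 at h3
    rw [inv_smul_smul] at h3
    have h4 : ((|(((γ : GL (Fin 2) ℝ)⁻¹).det : ℝ)| : ℝ) : ℂ) ^ ((2 : ℤ) - 1) ≠ 0 :=
      zpow_ne_zero _ (by exact_mod_cast (abs_pos.mpr hdet.ne').ne')
    have h5 : denom (γ : GL (Fin 2) ℝ)⁻¹ (((γ : GL (Fin 2) ℝ) • z : ℍ) : ℂ) ^ (-(2 : ℤ)) ≠ 0 :=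
      zpow_ne_zero _ (denom_ne_zero _ _)
    exact (mul_eq_zero.mp ((mul_eq_zero.mp h3).resolve_right h5)).resolve_right h4
  -- `f | diag = ε f`
  have hV : (ℓ : ℂ) • V ℓ f = ε • f := by
    have h1 : f ∣[(2 : ℤ)] heckeDiagMatrix ℓ = ε • f := sub_eq_zero.mp hG0
    rw [V_eq 2 hℓ.ne_zero, h1, smul_smul]
    have : (ℓ : ℂ) * ((ℓ : ℂ) ^ ((2 : ℤ) - 1))⁻¹ = 1 := by
      have : (ℓ : ℂ) ≠ 0 := by exact_mod_cast hℓ.ne_zero
      norm_num [this]
    rw [this, one_smul]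
  have hVcf := IsCF.V hf hℓ.ne_zero
  have hf' : IsCF (Gamma0 (N * ℓ)) 2 f := IsCF.nezero_level hf ℓ
  have hcoef : ∀ n, (ℓ : ℂ) * (if ℓ ∣ n then qCoeff f (n / ℓ) else 0) = ε * qCoeff f n := by
    intro n
    have h1 := congrArg (fun F => qCoeff F n) hV
    rwa [qCoeff_smul' hVcf, qCoeff_smul' hf', qCoeff_V hf hℓ.ne_zero] at h1
  have hε0 : ε ≠ 0 := by
    rintro rfl
    norm_num at hε
  have hn : ∀ n, qCoeff f n = 0 := by
    intro n
    induction n using Nat.strong_induction_on with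
    | _ n ih =>
      rcases Nat.eq_zero_or_pos n with rfl | hn
      · exact qCoeff_zero' hf
      · have h1 := hcoef n
        have h2 : (ℓ : ℂ) * (if ℓ ∣ n then qCoeff f (n / ℓ) else 0) = 0 := by
          split_ifs with h
          · rw [ih _ (Nat.div_lt_self hn hℓ.one_lt), mul_zero]
          · rw [mul_zero]
        rw [h2] at h1
        exact (mul_eq_zero.mp h1.symm).resolve_left hε0
  refine cf_ext hf (IsCF.zero (N := N)) fun n => ?_
  rw [hn, qCoeff_zero_fun]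

end Fermat.Agent.Petersson
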