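import Fermat.Agent.Newform.AL
import Mathlib.Analysis.Complex.UpperHalfPlane.Measure
import Mathlib.NumberTheory.ModularForms.Bounds
import Mathlib.MeasureTheory.Measure.Lebesgue.Complex
import Mathlib.MeasureTheory.Integral.DominatedConvergence
import Mathlib.Analysis.SpecialFunctions.ImproperIntegrals

set_option autoImplicit false

noncomputable section

namespace Fermat.Agent.Petersson

open UpperHalfPlane MeasureTheory Matrix.SpecialLinearGroup
open scoped MatrixGroups Modular ENNReal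

/-! ### Finiteness of the volume of the standard fundamental domain -/

theorem lintegral_inv_sq_lt_top :
    ∫⁻ y in Set.Ioi (1 / 4 : ℝ), ((1 / ‖y‖₊) ^ 2 : NNReal) < ⊤ := by
  have h1 : IntegrableOn (fun y : ℝ => y ^ (-2 : ℝ)) (Set.Ioi (1 / 4)) :=
    integrableOn_Ioi_rpow_of_lt (by norm_num) (by norm_num)
  have h2 := h1.2
  rw [hasFiniteIntegral_iff_enorm] at h2
  refine lt_of_le_of_lt (le_of_eq ?_) h2
  apply setLIntegral_congr_fun measurableSet_Ioi
  intro y hy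
  have hy0 : (0 : ℝ) < y := lt_trans (by norm_num) hy
  beta_reduce
  rw [enorm_eq_nnnorm]
  congr 1
  ext
  simp only [NNReal.coe_pow, NNReal.coe_div, NNReal.coe_one, coe_nnnorm, Real.norm_eq_abs]
  rw [abs_of_pos hy0, abs_of_nonneg (Real.rpow_nonneg hy0.le _), Real.rpow_neg hy0.le,
    one_div, inv_pow]
  norm_num

theorem volume_fd_lt_top : volume 𝒟 < ⊤ := by
  rw [volume_eq_lintegral]
  set S : Set (ℝ × ℝ) := Set.Icc (-(1 / 2)) (1 / 2) ×ˢ Set.Ioi (1 / 4) with hS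
  have hsub : (UpperHalfPlane.coe '' 𝒟) ⊆ Complex.measurableEquivRealProd ⁻¹' S := by
    rintro _ ⟨z, hz, rfl⟩
    have h1 := ModularGroup.three_le_four_mul_im_sq_of_mem_fd hz
    have h2 := hz.2
    rw [abs_le] at h2
    rw [hS]
    refine ⟨⟨h2.1, h2.2⟩, ?_⟩
    have h3 := z.im_pos
    change (1 / 4 : ℝ) < z.im
    nlinarith
  refine lt_of_le_of_lt (lintegral_mono_set hsub) ?_
  have h3 := (Complex.volume_preserving_equiv_real_prod).setLIntegral_comp_preimage_emb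
    Complex.measurableEquivRealProd.measurableEmbedding
    (fun x : ℝ × ℝ => (((1 / ‖x.2‖₊) ^ 2 : NNReal) : ℝ≥0∞)) S
  have h4 : ∫⁻ z in Complex.measurableEquivRealProd ⁻¹' S, ((1 / ‖z.im‖₊) ^ 2 : NNReal) =
      ∫⁻ x in S, (((1 / ‖x.2‖₊) ^ 2 : NNReal) : ℝ≥0∞) := by
    rw [← h3]
    rfl
  rw [h4, hS, Measure.volume_eq_prod, ← Measure.prod_restrict]
  rw [lintegral_prod _ (by fun_prop)]
  simp only [lintegral_const]
  exact ENNReal.mul_lt_top lintegral_inv_sq_lt_top (by simp)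

/-! ### Weight functions -/

/-- A weight function for `Γ`: a measurable function with total mass one along each orbit. -/
structure IsWt (Γ : Subgroup (GL (Fin 2) ℝ)) (h : ℍ → ℝ≥0∞) : Prop where
  meas : Measurable h
  sum_eq : ∀ z, ∑' γ : Γ, h ((γ : GL (Fin 2) ℝ) • z) = 1
  lint : ∫⁻ z, h z < ⊤

instance : Countable SL(2, ℤ) := by
  have h1 : Countable (Matrix (Fin 2) (Fin 2) ℤ) :=
    inferInstanceAs (Countable (Fin 2 → Fin 2 → ℤ))
  exact Function.Injective.countable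
    (f := fun g : SL(2, ℤ) => (g : Matrix (Fin 2) (Fin 2) ℤ)) Subtype.val_injective

theorem finite_fd {z : ℍ} (hz : z ∈ 𝒟) : {g : SL(2, ℤ) | g • z ∈ 𝒟}.Finite := by
  have key : ∀ T S : SL(2, ℤ), ∀ P : Set SL(2, ℤ), (∀ g ∈ P, (g = 1 ∨ g = -1) ∨
      (g = T ∨ g = -T) ∨ (g = T⁻¹ ∨ g = -T⁻¹) ∨ (g = S ∨ g = -S) ∨
      (g = T * S ∨ g = -(T * S)) ∨ (g = T⁻¹ * S * T⁻¹ ∨ g = -(T⁻¹ * S * T⁻¹)) ∨
      (g = S * T⁻¹ ∨ g = -(S * T⁻¹)) ∨ (g = S * T ∨ g = -(S * T)) ∨
      (g = T * S * T ∨ g = -(T * S * T)) ∨ (g = T⁻¹ * S ∨ g = -(T⁻¹ * S))) → P.Finite := by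
    intro T S P h
    have h1 : ∀ x : SL(2, ℤ), {g : SL(2, ℤ) | g = x ∨ g = -x}.Finite := fun x =>
      (Set.finite_singleton x).union (Set.finite_singleton (-x))
    exact Set.Finite.subset ((h1 1).union ((h1 T).union ((h1 T⁻¹).union ((h1 S).union
      ((h1 (T * S)).union ((h1 (T⁻¹ * S * T⁻¹)).union ((h1 (S * T⁻¹)).union
      ((h1 (S * T)).union ((h1 (T * S * T)).union (h1 (T⁻¹ * S))))))))))) h
  refine key ModularGroup.T ModularGroup.S _ fun g hg => ?_
  rcases ModularGroup.cases_of_mem_fd_smul_mem_fd hz hg with h | ⟨h, -⟩ | ⟨h, -⟩ | ⟨h, -⟩ |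
    ⟨h, -⟩ | ⟨h, -⟩ | ⟨h, -⟩ | ⟨h, -⟩ | ⟨h, -⟩ | ⟨h, -⟩
  · exact Or.inl h
  · exact Or.inr (Or.inl h)
  · exact Or.inr (Or.inr (Or.inl h))
  · exact Or.inr (Or.inr (Or.inr (Or.inl h)))
  · exact Or.inr (Or.inr (Or.inr (Or.inr (Or.inl h))))
  · exact Or.inr (Or.inr (Or.inr (Or.inr (Or.inr (Or.inl h)))))
  · exact Or.inr (Or.inr (Or.inr (Or.inr (Or.inr (Or.inr (Or.inl h))))))
  · exact Or.inr (Or.inr (Or.inr (Or.inr (Or.inr (Or.inr (Or.inr (Or.inl h)))))))
  · exact Or.inr (Or.inr (Or.inr (Or.inr (Or.inr (Or.inr (Or.inr (Or.inr (Or.inl h))))))))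
  · exact Or.inr (Or.inr (Or.inr (Or.inr (Or.inr (Or.inr (Or.inr (Or.inr (Or.inr h))))))))

/-- Number of points of the orbit in the fundamental domain (with multiplicity). -/
def cnt (z : ℍ) : ℝ≥0∞ := ∑' g : SL(2, ℤ), Set.indicator 𝒟 1 (g • z)

theorem cnt_smul (g : SL(2, ℤ)) (z : ℍ) : cnt (g • z) = cnt z := by
  unfold cnt
  simp only [← mul_smul]
  exact (Equiv.mulRight g).tsum_eq (fun x : SL(2, ℤ) => Set.indicator 𝒟 (1 : ℍ → ℝ≥0∞) (x • z))

theorem cnt_ne_zero (z : ℍ) : cnt z ≠ 0 := by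
  obtain ⟨g, hg⟩ := ModularGroup.exists_smul_mem_fd z
  have h1 : Set.indicator 𝒟 (1 : ℍ → ℝ≥0∞) (g • z) ≤ cnt z := ENNReal.le_tsum g
  rw [Set.indicator_of_mem hg, Pi.one_apply] at h1
  intro h
  rw [h] at h1
  simp at h1

theorem one_le_cnt (z : ℍ) : 1 ≤ cnt z := by
  obtain ⟨g, hg⟩ := ModularGroup.exists_smul_mem_fd z
  have h1 : Set.indicator 𝒟 (1 : ℍ → ℝ≥0∞) (g • z) ≤ cnt z := ENNReal.le_tsum g
  rwa [Set.indicator_of_mem hg, Pi.one_apply] at h1

theorem cnt_ne_top (z : ℍ) : cnt z ≠ ⊤ := by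
  obtain ⟨g, hg⟩ := ModularGroup.exists_smul_mem_fd z
  rw [← cnt_smul g z]
  set w := g • z
  have hf := finite_fd hg
  unfold cnt
  rw [tsum_eq_sum (s := hf.toFinset) (by
    intro b hb
    apply Set.indicator_of_notMem
    simpa using hb)]
  refine ENNReal.sum_ne_top.mpr fun b _ => ?_
  by_cases h : b • w ∈ 𝒟
  · rw [Set.indicator_of_mem h]; simp
  · rw [Set.indicator_of_notMem h]; simp

theorem measurable_smulSL (g : SL(2, ℤ)) : Measurable fun z : ℍ => g • z :=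
  (continuous_const_smul (mapGL ℝ g)).measurable

theorem measurable_cnt : Measurable cnt := by
  unfold cnt
  refine Measurable.tsum fun g => ?_
  refine (measurable_one.indicator ModularGroup.isClosed_fd.measurableSet).comp ?_
  exact measurable_smulSL g

/-- The weight function for the full modular group. -/
def wt1 (z : ℍ) : ℝ≥0∞ := Set.indicator 𝒟 1 z / cnt z

theorem tsum_wt1 (z : ℍ) : ∑' g : SL(2, ℤ), wt1 (g • z) = 1 := by
  unfold wt1
  simp only [cnt_smul, div_eq_mul_inv]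
  rw [ENNReal.tsum_mul_right]
  exact ENNReal.mul_inv_cancel (cnt_ne_zero z) (cnt_ne_top z)

theorem measurable_wt1 : Measurable wt1 :=
  (measurable_one.indicator ModularGroup.isClosed_fd.measurableSet).div measurable_cnt

theorem wt1_le (z : ℍ) : wt1 z ≤ Set.indicator 𝒟 1 z := by
  unfold wt1
  exact ENNReal.div_le_of_le_mul (le_mul_of_one_le_right zero_le (one_le_cnt z))

theorem lintegral_wt1 : ∫⁻ z, wt1 z < ⊤ := by
  refine lt_of_le_of_lt (lintegral_mono wt1_le) ?_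
  rw [lintegral_indicator_one ModularGroup.isClosed_fd.measurableSet]
  exact volume_fd_lt_top

/-- Left coset decomposition. -/
def cosetEquiv (G : Subgroup SL(2, ℤ)) : (SL(2, ℤ) ⧸ G) × G ≃ SL(2, ℤ) :=
  Equiv.ofBijective (fun p => (Quotient.out p.1 : SL(2, ℤ)) * p.2) <| by
    constructor
    · rintro ⟨q, g⟩ ⟨q', g'⟩ h
      simp only at h
      have h1 : ∀ (q : SL(2, ℤ) ⧸ G) (g : G),
          ((Quotient.out q * (g : SL(2, ℤ)) : SL(2, ℤ)) : SL(2, ℤ) ⧸ G) = q := by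
        intro q g
        rw [QuotientGroup.mk_mul_of_mem _ g.2]
        exact Quotient.out_eq q
      have h2 : q = q' := by rw [← h1 q g, ← h1 q' g', h]
      subst h2
      exact Prod.ext rfl (Subtype.ext (mul_left_cancel h))
    · intro x
      refine ⟨(x, ⟨(Quotient.out (x : SL(2, ℤ) ⧸ G))⁻¹ * x, ?_⟩), by simp⟩
      rw [← QuotientGroup.eq]
      exact Quotient.out_eq (x : SL(2, ℤ) ⧸ G)

/-- The weight function for a subgroup of finite index. -/
def wtG (G : Subgroup SL(2, ℤ)) (z : ℍ) : ℝ≥0∞ :=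
  ∑' q : SL(2, ℤ) ⧸ G, wt1 ((Quotient.out q : SL(2, ℤ)) • z)

theorem tsum_wtG (G : Subgroup SL(2, ℤ)) (z : ℍ) : ∑' g : G, wtG G ((g : SL(2, ℤ)) • z) = 1 := by
  unfold wtG
  rw [ENNReal.tsum_comm, ← ENNReal.tsum_prod, ← tsum_wt1 z]
  simp only [← mul_smul]
  exact (cosetEquiv G).tsum_eq (fun g => wt1 (g • z))

theorem wtG_isWt (G : Subgroup SL(2, ℤ)) [G.FiniteIndex] : IsWt (G.map (mapGL ℝ)) (wtG G) := by
  have : Fintype (SL(2, ℤ) ⧸ G) := Subgroup.fintypeQuotientOfFiniteIndex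
  refine ⟨?_, fun z => ?_, ?_⟩
  · unfold wtG
    exact Measurable.tsum fun q => measurable_wt1.comp (measurable_smulSL _)
  · rw [← tsum_wtG G z, ← (G.equivMapOfInjective (mapGL ℝ) mapGL_injective).toEquiv.tsum_eq]
    rfl
  · unfold wtG
    simp only [tsum_fintype]
    have h2 := lintegral_finsetSum (μ := (volume : Measure ℍ)) Finset.univ
      (f := fun (q : SL(2, ℤ) ⧸ G) (z : ℍ) => wt1 ((Quotient.out q : SL(2, ℤ)) • z))
      (fun q _ => measurable_wt1.comp (measurable_smulSL _))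
    rw [h2]
    refine ENNReal.sum_lt_top.mpr fun q _ => ?_
    have h1 := (measurePreserving_smul (mapGL ℝ (Quotient.out q : SL(2, ℤ)))
      (volume : Measure ℍ)).lintegral_comp measurable_wt1
    exact lt_of_le_of_lt (le_of_eq h1) lintegral_wt1

end Fermat.Agent.Petersson
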