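import Fermat.Agent.Petersson.Weight
import Fermat.Agent.Newform.BadPrime

set_option autoImplicit false

noncomputable section

namespace Fermat.Agent.Petersson

open UpperHalfPlane ModularForm MeasureTheory Matrix.SpecialLinearGroup CongruenceSubgroup
open Fermat.Agent.IntStr Fermat.Agent.Newform ModularFormClass CuspForm Fermat.Agent.Eigenform
open scoped MatrixGroups Modular ENNReal ModularForm

variable {Γ : Subgroup (GL (Fin 2) ℝ)} {h : ℍ → ℝ≥0∞}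

theorem IsWt.le_one (hw : IsWt Γ h) (z : ℍ) : h z ≤ 1 := by
  rw [← hw.sum_eq z]
  have := ENNReal.le_tsum (f := fun γ : Γ => h ((γ : GL (Fin 2) ℝ) • z)) 1
  simpa using this

theorem IsWt.ne_top (hw : IsWt Γ h) (z : ℍ) : h z ≠ ⊤ :=
  ne_top_of_le_ne_top ENNReal.one_ne_top (hw.le_one z)

theorem IsWt.tsum_toReal (hw : IsWt Γ h) (z : ℍ) :
    ∑' γ : Γ, (h ((γ : GL (Fin 2) ℝ) • z)).toReal = 1 := by
  rw [← ENNReal.tsum_toReal_eq (fun γ => hw.ne_top _), hw.sum_eq z, ENNReal.toReal_one]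

/-- The Petersson pairing defined by a weight function. -/
def pet (h : ℍ → ℝ≥0∞) (k : ℤ) (f g : ℍ → ℂ) : ℂ :=
  ∫ z, ((h z).toReal : ℂ) * petersson k f g z

theorem measurable_smulGL (m : GL (Fin 2) ℝ) : Measurable fun z : ℍ => m • z :=
  (continuous_const_smul m).measurable

theorem summable_of_tsum_enorm {α : Type*} {f : α → ℂ} (hf : ∑' a, ‖f a‖ₑ ≠ ⊤) : Summable f := by
  apply Summable.of_nnnorm
  rw [← ENNReal.tsum_coe_ne_top_iff_summable]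
  exact hf

theorem enorm_toReal_mul {a : ℝ≥0∞} (ha : a ≠ ⊤) (w : ℂ) : ‖((a.toReal : ℝ) : ℂ) * w‖ₑ = a * ‖w‖ₑ := by
  rw [enorm_mul]
  congr 1
  rw [← ofReal_norm, Complex.norm_real, Real.norm_of_nonneg ENNReal.toReal_nonneg,
    ENNReal.ofReal_toReal ha]

/-- Unfolding of a sum over representatives. -/
theorem unfold_sum {ι : Type*} [Fintype ι] [Countable Γ] (hw : IsWt Γ h) (r : ι → GL (Fin 2) ℝ)
    (hinj : ∀ i j, r i * (r j)⁻¹ ∈ Γ → i = j) (D : Set (GL (Fin 2) ℝ))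
    (hD : ∀ m, m ∈ D ↔ ∃ i, m * (r i)⁻¹ ∈ Γ) (F : GL (Fin 2) ℝ → ℍ → ℂ)
    (hF : ∀ γ ∈ Γ, ∀ m, F (γ * m) = F m) (hmeas : ∀ i, Measurable (F (r i)))
    (hbd : ∀ i, ∃ C : ℝ, ∀ z, ‖F (r i) z‖ ≤ C) :
    ∫ z, ((h z).toReal : ℂ) * ∑ i, F (r i) z =
      ∑' m : D, ∫ z, ((h z).toReal : ℂ) * (((h ((m : GL (Fin 2) ℝ) • z)).toReal : ℂ) *
        F (m : GL (Fin 2) ℝ) z) := by
  classical
  have hb : Function.Bijective (fun p : ι × Γ => (⟨p.2 * r p.1, (hD _).mpr ⟨p.1, by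
      rw [mul_assoc, mul_inv_cancel, mul_one]; exact p.2.2⟩⟩ : D)) := by
    constructor
    · rintro ⟨i, γ⟩ ⟨j, γ'⟩ hp
      have hp' : (γ : GL (Fin 2) ℝ) * r i = γ' * r j := congrArg Subtype.val hp
      have h1 : i = j := by
        apply hinj
        have : r i * (r j)⁻¹ = (γ : GL (Fin 2) ℝ)⁻¹ * γ' := by
          rw [mul_inv_eq_iff_eq_mul, mul_assoc, ← hp', inv_mul_cancel_left]
        rw [this]
        exact Γ.mul_mem (Γ.inv_mem γ.2) γ'.2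
      subst h1
      exact Prod.ext rfl (Subtype.ext (mul_right_cancel hp'))
    · rintro ⟨m, hm⟩
      obtain ⟨i, hi⟩ := (hD m).mp hm
      exact ⟨(i, ⟨_, hi⟩), Subtype.ext (by simp)⟩
  rw [← (Equiv.ofBijective _ hb).tsum_eq]
  simp only [Equiv.ofBijective_apply]
  have hFγ : ∀ (i : ι) (γ : Γ), F ((γ : GL (Fin 2) ℝ) * r i) = F (r i) := fun i γ => hF γ γ.2 _
  simp only [hFγ]
  have hnorm : ∀ (p : ι × Γ) (z : ℍ), ‖((h z).toReal : ℂ) *
      (((h (((p.2 : GL (Fin 2) ℝ) * r p.1) • z)).toReal : ℂ) * F (r p.1) z)‖ₑ =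
      h z * ‖F (r p.1) z‖ₑ * h ((p.2 : GL (Fin 2) ℝ) • (r p.1 • z)) := by
    intro p z
    rw [enorm_toReal_mul (hw.ne_top _), enorm_toReal_mul (hw.ne_top _), ← mul_smul]
    ring
  have hsum : ∀ z : ℍ, ∑' p : ι × Γ, ‖((h z).toReal : ℂ) *
      (((h (((p.2 : GL (Fin 2) ℝ) * r p.1) • z)).toReal : ℂ) * F (r p.1) z)‖ₑ =
      ∑ i, h z * ‖F (r i) z‖ₑ := by
    intro z
    simp only [hnorm]
    rw [ENNReal.tsum_prod', tsum_fintype]
    refine Finset.sum_congr rfl fun i _ => ?_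
    simp only
    rw [ENNReal.tsum_mul_left, hw.sum_eq, mul_one]
  have hmh : ∀ m : GL (Fin 2) ℝ, Measurable fun z => ((h (m • z)).toReal : ℂ) := fun m =>
    Complex.measurable_ofReal.comp ((hw.meas.comp (measurable_smulGL m)).ennreal_toReal)
  have hmh0 : Measurable fun z => ((h z).toReal : ℂ) :=
    Complex.measurable_ofReal.comp hw.meas.ennreal_toReal
  have hmeasp : ∀ p : ι × Γ, Measurable fun z => ((h z).toReal : ℂ) *
      (((h (((p.2 : GL (Fin 2) ℝ) * r p.1) • z)).toReal : ℂ) * F (r p.1) z) := fun p =>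
    hmh0.mul ((hmh _).mul (hmeas _))
  rw [← integral_tsum (fun p => (hmeasp p).aestronglyMeasurable)]
  · apply integral_congr_ae
    filter_upwards with z
    have hS : Summable fun p : ι × Γ => ((h z).toReal : ℂ) *
        (((h (((p.2 : GL (Fin 2) ℝ) * r p.1) • z)).toReal : ℂ) * F (r p.1) z) := by
      apply summable_of_tsum_enorm
      rw [hsum z]
      refine ENNReal.sum_ne_top.mpr fun i _ => ENNReal.mul_ne_top (hw.ne_top z) enorm_ne_top
    rw [hS.tsum_prod, tsum_fintype, Finset.mul_sum]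
    refine Finset.sum_congr rfl fun i _ => ?_
    simp only
    rw [tsum_mul_left, tsum_mul_right]
    congr 1
    have h1 : ∑' γ : Γ, (((h (((γ : GL (Fin 2) ℝ) * r i) • z)).toReal : ℝ) : ℂ) = 1 := by
      rw [← Complex.ofReal_tsum]
      simp only [mul_smul]
      rw [hw.tsum_toReal, Complex.ofReal_one]
    rw [h1, one_mul]
  · rw [← lintegral_tsum (fun p => (hmeasp p).enorm.aemeasurable)]
    simp only [hsum]
    have h3 := lintegral_finsetSum (μ := (volume : Measure ℍ)) Finset.univ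
      (f := fun (i : ι) (a : ℍ) => h a * ‖F (r i) a‖ₑ) (fun i _ => hw.meas.mul (hmeas i).enorm)
    rw [h3]
    refine ENNReal.sum_ne_top.mpr fun i _ => ?_
    obtain ⟨C, hC⟩ := hbd i
    have h2 : ∀ z, h z * ‖F (r i) z‖ₑ ≤ h z * ENNReal.ofReal C := by
      intro z
      gcongr
      rw [← ofReal_norm]
      exact ENNReal.ofReal_le_ofReal (hC z)
    refine ne_top_of_le_ne_top ?_ (lintegral_mono h2)
    rw [lintegral_mul_const _ hw.meas]
    exact ENNReal.mul_ne_top hw.lint.ne ENNReal.ofReal_ne_top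

/-- Bounded Petersson norm. -/
def IsBd (f : ℍ → ℂ) : Prop := Continuous f ∧ ∃ C : ℝ, ∀ z, ‖petersson 2 f f z‖ ≤ C

theorem norm_petersson_sq (f g : ℍ → ℂ) (z : ℍ) :
    ‖petersson 2 f g z‖ ^ 2 = ‖petersson 2 f f z‖ * ‖petersson 2 g g z‖ := by
  simp only [petersson, norm_mul, Complex.norm_conj]
  ring

theorem IsBd.bound {f g : ℍ → ℂ} (hf : IsBd f) (hg : IsBd g) :
    ∃ C : ℝ, ∀ z, ‖petersson 2 f g z‖ ≤ C := by
  obtain ⟨C, hC⟩ := hf.2
  obtain ⟨C', hC'⟩ := hg.2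
  refine ⟨Real.sqrt (C * C'), fun z => ?_⟩
  apply Real.le_sqrt_of_sq_le
  rw [norm_petersson_sq]
  exact mul_le_mul (hC z) (hC' z) (norm_nonneg _) ((norm_nonneg _).trans (hC z))

theorem IsBd.slash {f : ℍ → ℂ} (hf : IsBd f) (m : GL (Fin 2) ℝ) (hm : 0 < (m.det : ℝ)) :
    IsBd (f ∣[(2 : ℤ)] m) := by
  refine ⟨?_, ?_⟩
  · have h1 : (f ∣[(2 : ℤ)] m) = fun τ => f (m • τ) * ((|(m.det : ℝ)| : ℝ) : ℂ) ^ ((2 : ℤ) - 1) *
        denom m τ ^ (-(2 : ℤ)) := by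
      funext τ
      rw [ModularForm.slash_def, sigma_of_det_pos hm]
      rfl
    rw [h1]
    have h2 : Continuous fun τ : ℍ => f (m • τ) := hf.1.comp (continuous_const_smul m)
    have h3 : Continuous fun τ : ℍ => denom m (τ : ℂ) := by
      unfold denom
      fun_prop
    refine (h2.mul continuous_const).mul ?_
    exact h3.zpow₀ _ (fun τ => Or.inl (denom_ne_zero m τ))
  · obtain ⟨C, hC⟩ := hf.2
    refine ⟨C, fun z => ?_⟩
    rw [petersson_slash, sub_self, zpow_zero, one_mul, norm_σ]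
    exact hC _

theorem isBd_of_cf {N : ℕ} [NeZero N] {f : ℍ → ℂ} (hf : IsCF (Gamma0 N) 2 f) : IsBd f := by
  obtain ⟨C, hC⟩ := CuspFormClass.petersson_bounded_left 2 _ hf.toCuspForm hf.toCuspForm
  refine ⟨?_, C, hC⟩
  exact (ModularFormClass.continuous hf.toCuspForm)

theorem IsBd.measurable_petersson {f g : ℍ → ℂ} (hf : IsBd f) (hg : IsBd g) :
    Measurable (petersson 2 f g) := (petersson_continuous 2 hf.1 hg.1).measurable

theorem petersson_adj (f g : ℍ → ℂ) {m m' s : GL (Fin 2) ℝ} (hm : 0 < (m.det : ℝ))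
    (hs : m' * m = s) (hgs : ∀ g : ℍ → ℂ, g ∣[(2 : ℤ)] s = g) (z : ℍ) :
    petersson 2 (f ∣[(2 : ℤ)] m) g z = petersson 2 f (g ∣[(2 : ℤ)] m') (m • z) := by
  have h1 : g = (g ∣[(2 : ℤ)] m') ∣[(2 : ℤ)] m := by
    rw [← SlashAction.slash_mul, hs, hgs]
  conv_lhs => rw [h1]
  rw [petersson_slash, sub_self, zpow_zero, one_mul, sigma_of_det_pos hm]
  rfl

theorem petersson_sum_left {ι : Type*} [Fintype ι] (f : ι → ℍ → ℂ) (g : ℍ → ℂ) (z : ℍ) :
    petersson 2 (∑ i, f i) g z = ∑ i, petersson 2 (f i) g z := by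
  simp only [petersson, Finset.sum_apply, map_sum, Finset.sum_mul]

theorem petersson_sum_right {ι : Type*} [Fintype ι] (f : ℍ → ℂ) (g : ι → ℍ → ℂ) (z : ℍ) :
    petersson 2 f (∑ i, g i) z = ∑ i, petersson 2 f (g i) z := by
  simp only [petersson, Finset.sum_apply, Finset.mul_sum, Finset.sum_mul]

theorem det_pos_of_Dset {N : ℕ} {D : ℤ} (hD : 0 < D) {m : GL (Fin 2) ℝ} {a b c d : ℤ}
    (hm : Dset N D m a b c d) : (m.det : ℝ) = D ∧ 0 < (m.det : ℝ) := by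
  obtain ⟨hdet, -, hm⟩ := hm
  have h1 : (m.det : ℝ) = D := by
    have : (m.det : ℝ) = (m : Matrix (Fin 2) (Fin 2) ℝ).det := rfl
    rw [this, hm, Matrix.det_fin_two_of, ← hdet]
    push_cast
    ring
  exact ⟨h1, by rw [h1]; exact_mod_cast hD⟩

theorem Dset_mul {N : ℕ} {D E : ℤ} {m m' : GL (Fin 2) ℝ} {a b c d a' b' c' d' : ℤ}
    (hm : Dset N D m a b c d) (hm' : Dset N E m' a' b' c' d') :
    Dset N (D * E) (m * m') (a * a' + b * c') (a * b' + b * d') (c * a' + d * c')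
      (c * b' + d * d') := by
  obtain ⟨h1, h2, h3⟩ := hm
  obtain ⟨h1', h2', h3'⟩ := hm'
  refine ⟨by rw [← h1, ← h1']; ring, dvd_add (h2.mul_right _) (h2'.mul_left _), ?_⟩
  rw [Units.val_mul, h3, h3', Matrix.mul_fin_two]
  push_cast
  rfl

instance (N : ℕ) : Countable (G0 N) := by
  unfold G0
  exact (((Gamma0 N).equivMapOfInjective (mapGL ℝ) mapGL_injective).symm.injective).countable

theorem mem_Dset_iff {N ℓ : ℕ} (hℓ : ℓ.Prime) (hℓN : ¬ ℓ ∣ N) (m : GL (Fin 2) ℝ) :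
    (∃ a b c d, Dset N ℓ m a b c d) ↔ ∃ i, m * (rT ℓ i)⁻¹ ∈ G0 N := by
  constructor
  · rintro ⟨a, b, c, d, h⟩
    exact T_cover hℓ hℓN h
  · rintro ⟨i, hi⟩
    obtain ⟨a, b, c, d, h⟩ := mem_G0_iff_Dset.mp hi
    have h2 : ∃ a b c d, Dset N ℓ (rT ℓ i) a b c d := by
      rcases i with _ | i
      · exact ⟨_, _, _, _, Dset_heckeDiag hℓ.ne_zero⟩
      · exact ⟨_, _, _, _, Dset_heckeMatrix hℓ.ne_zero _⟩
    obtain ⟨a', b', c', d', h'⟩ := h2
    have h3 := Dset_mul h h'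
    rw [one_mul, inv_mul_cancel_right] at h3
    exact ⟨_, _, _, _, h3⟩

/-- Unfolding and the involution `m ↦ ℓ m⁻¹` of the double coset. -/
theorem unfold_swap {N : ℕ} (hw : IsWt (G0 N) h) {ℓ : ℕ} (hℓ : ℓ.Prime) (hℓN : ¬ ℓ ∣ N)
    (F F' : GL (Fin 2) ℝ → ℍ → ℂ)
    (hF : ∀ γ ∈ G0 N, ∀ m, F (γ * m) = F m) (hF' : ∀ γ ∈ G0 N, ∀ m, F' (γ * m) = F' m)
    (hmeas : ∀ i, Measurable (F (rT ℓ i))) (hbd : ∀ i, ∃ C : ℝ, ∀ z, ‖F (rT ℓ i) z‖ ≤ C)
    (hmeas' : ∀ i, Measurable (F' (rT ℓ i))) (hbd' : ∀ i, ∃ C : ℝ, ∀ z, ‖F' (rT ℓ i) z‖ ≤ C)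
    (hswap : ∀ m m' : GL (Fin 2) ℝ, 0 < (m.det : ℝ) → (∀ g : ℍ → ℂ, g ∣[(2 : ℤ)] (m' * m) = g) →
      ∀ z, F m z = F' m' (m • z)) :
    ∫ z, ((h z).toReal : ℂ) * ∑ i, F (rT ℓ i) z =
      ∫ z, ((h z).toReal : ℂ) * ∑ i, F' (rT ℓ i) z := by
  have hℓ0 : (ℓ : ℝ) * ℓ - 0 * 0 ≠ 0 := by
    have : (ℓ : ℝ) ≠ 0 := by exact_mod_cast hℓ.ne_zero
    simpa using this
  set s : GL (Fin 2) ℝ := mat ℓ 0 0 ℓ hℓ0 with hs
  set D : Set (GL (Fin 2) ℝ) := {m | ∃ a b c d, Dset N ℓ m a b c d} with hD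
  have hpos : ∀ m ∈ D, 0 < (m.det : ℝ) := by
    rintro m ⟨a, b, c, d, hm⟩
    exact (det_pos_of_Dset (by exact_mod_cast hℓ.pos) hm).2
  have hrD : ∀ i, rT ℓ i ∈ D := fun i => (mem_Dset_iff hℓ hℓN _).mpr
    ⟨i, by rw [mul_inv_cancel]; exact (G0 N).one_mem⟩
  have hsinv : ∀ m ∈ D, s * m⁻¹ ∈ D := by
    rintro m ⟨a, b, c, d, hdet, hc, hm⟩
    refine ⟨d, -b, -c, a, by linear_combination hdet, (dvd_neg.mpr hc), ?_⟩
    set m' : GL (Fin 2) ℝ := mat d (-b) (-c) a (by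
      have : (d : ℝ) * a - -b * -c = ℓ := by
        have : (a : ℝ) * d - b * c = ℓ := by exact_mod_cast hdet
        linear_combination this
      rw [this]; exact_mod_cast hℓ.ne_zero) with hm'
    have h1 : s = m' * m := by
      apply Units.ext
      rw [Units.val_mul, hm, hm', hs, val_mat, val_mat, Matrix.mul_fin_two]
      have : (a : ℝ) * d - b * c = ℓ := by exact_mod_cast hdet
      ext i j
      fin_cases i <;> fin_cases j <;> simp
      · linear_combination -this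
      · ring
      · ring
      · linear_combination -this
    rw [h1, mul_inv_cancel_right, hm', val_mat]
    push_cast
    rfl
  have hscomm : ∀ m : GL (Fin 2) ℝ, s * m = m * s := by
    intro g
    apply Units.ext
    rw [Units.val_mul, Units.val_mul, hs, val_mat]
    ext i j
    fin_cases i <;> fin_cases j <;> simp [Matrix.mul_apply, Fin.sum_univ_two, mul_comm]
  have hsl : ∀ g : ℍ → ℂ, g ∣[(2 : ℤ)] s = g := fun g =>
    slash_scalar (by exact_mod_cast hℓ.pos) _ g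
  have hsz : ∀ z : ℍ, s • z = z := by
    intro z
    have : s = Matrix.GeneralLinearGroup.scalar (Fin 2)
        (Units.mk0 (ℓ : ℝ) (by exact_mod_cast hℓ.ne_zero)) := by
      apply Units.ext
      rw [hs, val_mat, Matrix.GeneralLinearGroup.coe_scalar]
      ext i j
      rw [Matrix.scalar_apply, Matrix.diagonal_apply]
      fin_cases i <;> fin_cases j <;> simp
    rw [this, glScalar_smul]
  rw [unfold_sum hw (rT ℓ) (fun i j => rT_inj hℓ) D (fun m => mem_Dset_iff hℓ hℓN m)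
      F hF hmeas hbd, unfold_sum hw (rT ℓ) (fun i j => rT_inj hℓ) D
      (fun m => mem_Dset_iff hℓ hℓN m) F' hF' hmeas' hbd']
  let e : D ≃ D :=
    { toFun := fun m => ⟨s * (m : GL (Fin 2) ℝ)⁻¹, hsinv m m.2⟩
      invFun := fun m => ⟨s * (m : GL (Fin 2) ℝ)⁻¹, hsinv m m.2⟩
      left_inv := fun m => Subtype.ext (by
        change s * (s * (m : GL (Fin 2) ℝ)⁻¹)⁻¹ = m
        rw [mul_inv_rev, inv_inv, ← mul_assoc, hscomm, mul_inv_cancel_right])
      right_inv := fun m => Subtype.ext (by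
        change s * (s * (m : GL (Fin 2) ℝ)⁻¹)⁻¹ = m
        rw [mul_inv_rev, inv_inv, ← mul_assoc, hscomm, mul_inv_cancel_right]) }
  rw [← e.tsum_eq (fun m : D => ∫ z, ((h z).toReal : ℂ) *
      (((h ((m : GL (Fin 2) ℝ) • z)).toReal : ℂ) * F' (m : GL (Fin 2) ℝ) z))]
  refine tsum_congr fun m => ?_
  have he : ((e m : D) : GL (Fin 2) ℝ) = s * (m : GL (Fin 2) ℝ)⁻¹ := rfl
  rw [he]
  have h1 : ∀ z, F (m : GL (Fin 2) ℝ) z = F' (s * (m : GL (Fin 2) ℝ)⁻¹)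
      ((m : GL (Fin 2) ℝ) • z) := fun z =>
    hswap _ _ (hpos _ m.2) (by rw [inv_mul_cancel_right]; exact hsl) z
  simp only [h1]
  rw [← integral_smul_eq_self (μ := (volume : Measure ℍ)) (fun z => ((h z).toReal : ℂ) *
      (((h ((s * (m : GL (Fin 2) ℝ)⁻¹) • z)).toReal : ℂ) *
        F' (s * (m : GL (Fin 2) ℝ)⁻¹) z)) (g := (m : GL (Fin 2) ℝ))]
  apply integral_congr_ae
  filter_upwards with z
  rw [← mul_smul, inv_mul_cancel_right, hsz]
  ring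

theorem det_rT_pos {ℓ : ℕ} (hℓ : ℓ.Prime) (i : Option (Fin ℓ)) : 0 < ((rT ℓ i).det : ℝ) := by
  have h2 : ∃ a b c d, Dset 1 ℓ (rT ℓ i) a b c d := by
    rcases i with _ | i
    · exact ⟨_, _, _, _, Dset_heckeDiag hℓ.ne_zero⟩
    · exact ⟨_, _, _, _, Dset_heckeMatrix hℓ.ne_zero _⟩
  obtain ⟨a, b, c, d, hm⟩ := h2
  exact (det_pos_of_Dset (by exact_mod_cast hℓ.pos) hm).2

/-- `T_ℓ` is self-adjoint for the Petersson pairing. -/
theorem pet_heckeT {N : ℕ} [NeZero N] (hw : IsWt (G0 N) h) {ℓ : ℕ} (hℓ : ℓ.Prime) (hℓN : ¬ ℓ ∣ N)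
    {f g : ℍ → ℂ} (hf : IsCF (Gamma0 N) 2 f) (hg : IsCF (Gamma0 N) 2 g) :
    pet h 2 (heckeT 2 ℓ f) g = pet h 2 f (heckeT 2 ℓ g) := by
  have hfb := isBd_of_cf hf
  have hgb := isBd_of_cf hg
  have hstabf : ∀ γ ∈ G0 N, f ∣[(2 : ℤ)] γ = f := fun γ hγ => G0_le_stab hf hγ
  have hstabg : ∀ γ ∈ G0 N, g ∣[(2 : ℤ)] γ = g := fun γ hγ => G0_le_stab hg hγ
  unfold pet
  rw [heckeT_eq_sum, heckeT_eq_sum]
  simp only [petersson_sum_left, petersson_sum_right]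
  exact unfold_swap hw hℓ hℓN (fun m => petersson 2 (f ∣[(2 : ℤ)] m) g)
    (fun m => petersson 2 f (g ∣[(2 : ℤ)] m))
    (fun γ hγ m => by rw [SlashAction.slash_mul, hstabf γ hγ])
    (fun γ hγ m => by rw [SlashAction.slash_mul, hstabg γ hγ])
    (fun i => (hfb.slash _ (det_rT_pos hℓ i)).measurable_petersson hgb)
    (fun i => (hfb.slash _ (det_rT_pos hℓ i)).bound hgb)
    (fun i => hfb.measurable_petersson (hgb.slash _ (det_rT_pos hℓ i)))
    (fun i => hfb.bound (hgb.slash _ (det_rT_pos hℓ i)))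
    (fun m m' hm hs z => petersson_adj f g hm rfl hs z)

/-- `∑ ‖f|r_i‖² = (ℓ+1) ‖f‖²`. -/
theorem pet_sum_norm {N : ℕ} [NeZero N] (hw : IsWt (G0 N) h) {ℓ : ℕ} (hℓ : ℓ.Prime)
    (hℓN : ¬ ℓ ∣ N) {f : ℍ → ℂ} (hf : IsCF (Gamma0 N) 2 f) :
    ∫ z, ((h z).toReal : ℂ) * ∑ i, petersson 2 (f ∣[(2 : ℤ)] rT ℓ i) (f ∣[(2 : ℤ)] rT ℓ i) z =
      (ℓ + 1) * pet h 2 f f := by
  have hfb := isBd_of_cf hf
  have hstabf : ∀ γ ∈ G0 N, f ∣[(2 : ℤ)] γ = f := fun γ hγ => G0_le_stab hf hγ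
  rw [unfold_swap hw hℓ hℓN (fun m => petersson 2 (f ∣[(2 : ℤ)] m) (f ∣[(2 : ℤ)] m))
    (fun _ => petersson 2 f f)
    (fun γ hγ m => by rw [SlashAction.slash_mul, hstabf γ hγ])
    (fun γ hγ m => rfl)
    (fun i => (hfb.slash _ (det_rT_pos hℓ i)).measurable_petersson
      (hfb.slash _ (det_rT_pos hℓ i)))
    (fun i => (hfb.slash _ (det_rT_pos hℓ i)).bound (hfb.slash _ (det_rT_pos hℓ i)))
    (fun i => hfb.measurable_petersson hfb)
    (fun i => hfb.bound hfb)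
    (fun m m' hm hs z => by
      rw [petersson_slash, sub_self, zpow_zero, one_mul, sigma_of_det_pos hm]
      rfl)]
  unfold pet
  rw [← integral_const_mul]
  congr 1
  funext z
  rw [Finset.sum_const, Finset.card_univ, Fintype.card_option, Fintype.card_fin, nsmul_eq_mul]
  push_cast
  ring

end Fermat.Agent.Petersson
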