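import Fermat.Agent.Petersson.Adjoint
import Mathlib.LinearAlgebra.Eigenspace.Pi

set_option autoImplicit false

noncomputable section

namespace Fermat.Agent.Petersson

open UpperHalfPlane ModularForm MeasureTheory Matrix.SpecialLinearGroup CongruenceSubgroup
open Fermat.Agent.IntStr Fermat.Agent.Newform ModularFormClass CuspForm Fermat.Agent.Eigenform
open scoped MatrixGroups Modular ENNReal ModularForm ComplexConjugate

variable {Γ : Subgroup (GL (Fin 2) ℝ)} {h : ℍ → ℝ≥0∞}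

/-- Nonempty open sets have positive measure. -/
theorem volume_pos_of_isOpen {U : Set ℍ} (hU : IsOpen U) (hne : U.Nonempty) :
    (volume : Measure ℍ) U ≠ 0 := by
  intro h0
  rw [volume_eq_lintegral] at h0
  have hm : Measurable fun z : ℂ => (((1 / ‖z.im‖₊) ^ 2 : NNReal) : ℝ≥0∞) := by fun_prop
  have hopen : IsOpen (UpperHalfPlane.coe '' U) := isOpenEmbedding_coe.isOpenMap U hU
  rw [setLIntegral_eq_zero_iff hopen.measurableSet hm] at h0
  have h1 : volume (UpperHalfPlane.coe '' U) = 0 := by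
    refine measure_mono_null ?_ h0
    rintro _ ⟨z, hz, rfl⟩
    simp only [Set.mem_compl_iff, Set.mem_ofPred_eq]
    intro h
    have h2 := h ⟨z, hz, rfl⟩
    have h3 := z.im_pos.ne'
    simp [h3] at h2
  exact (hopen.measure_pos volume (hne.image _)).ne' h1

theorem eq_zero_of_ae {f : ℍ → ℂ} (hf : Continuous f) (h0 : ∀ᵐ z, f z = 0) : f = 0 := by
  by_contra hne
  obtain ⟨z, hz⟩ := Function.ne_iff.mp hne
  have hU : IsOpen {z | f z ≠ 0} := isOpen_ne_fun hf continuous_const
  exact volume_pos_of_isOpen hU ⟨z, hz⟩ h0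

theorem pet_integrable (hw : IsWt Γ h) {f g : ℍ → ℂ} (hf : IsBd f) (hg : IsBd g) :
    Integrable fun z => ((h z).toReal : ℂ) * petersson 2 f g z := by
  obtain ⟨C, hC⟩ := hf.bound hg
  have hm : Measurable fun z => ((h z).toReal : ℂ) :=
    Complex.measurable_ofReal.comp hw.meas.ennreal_toReal
  refine ⟨(hm.mul (hf.measurable_petersson hg)).aestronglyMeasurable, ?_⟩
  rw [hasFiniteIntegral_iff_enorm]
  have h2 : ∀ z, ‖((h z).toReal : ℂ) * petersson 2 f g z‖ₑ ≤ h z * ENNReal.ofReal C := by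
    intro z
    rw [enorm_toReal_mul (hw.ne_top z)]
    gcongr
    rw [← ofReal_norm]
    exact ENNReal.ofReal_le_ofReal (hC z)
  refine lt_of_le_of_lt (lintegral_mono h2) ?_
  rw [lintegral_mul_const _ hw.meas]
  exact ENNReal.mul_lt_top hw.lint ENNReal.ofReal_lt_top

theorem pet_add_left (hw : IsWt Γ h) {f f' g : ℍ → ℂ} (hf : IsBd f) (hf' : IsBd f')
    (hg : IsBd g) : pet h 2 (f + f') g = pet h 2 f g + pet h 2 f' g := by
  unfold pet
  rw [← integral_add (pet_integrable hw hf hg) (pet_integrable hw hf' hg)]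
  congr 1
  funext z
  simp only [petersson, Pi.add_apply, map_add]
  ring

theorem pet_symm (f g : ℍ → ℂ) : pet h 2 g f = conj (pet h 2 f g) := by
  unfold pet
  rw [← integral_conj]
  congr 1
  funext z
  rw [petersson_symm, map_mul, Complex.conj_ofReal]

theorem pet_add_right (hw : IsWt Γ h) {f g g' : ℍ → ℂ} (hf : IsBd f) (hg : IsBd g)
    (hg' : IsBd g') : pet h 2 f (g + g') = pet h 2 f g + pet h 2 f g' := by
  rw [pet_symm, pet_add_left hw hg hg' hf, map_add, ← pet_symm, ← pet_symm]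

theorem pet_smul_right (c : ℂ) (f g : ℍ → ℂ) : pet h 2 f (c • g) = c * pet h 2 f g := by
  unfold pet
  rw [← integral_const_mul]
  congr 1
  funext z
  simp only [petersson, Pi.smul_apply, smul_eq_mul]
  ring

theorem pet_smul_left (c : ℂ) (f g : ℍ → ℂ) : pet h 2 (c • f) g = conj c * pet h 2 f g := by
  rw [pet_symm, pet_smul_right, map_mul, ← pet_symm]

theorem petersson_self (f : ℍ → ℂ) (z : ℍ) :
    petersson 2 f f z = ((‖f z‖ ^ 2 * z.im ^ 2 : ℝ) : ℂ) := by
  simp only [petersson]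
  rw [mul_comm (conj (f z)), Complex.mul_conj, Complex.normSq_eq_norm_sq]
  push_cast
  rfl

theorem pet_self (f : ℍ → ℂ) :
    pet h 2 f f = ((∫ z : ℍ, (h z).toReal * (‖f z‖ ^ 2 * z.im ^ 2) : ℝ) : ℂ) := by
  unfold pet
  simp only [petersson_self]
  rw [← integral_complex_ofReal]
  congr 1
  funext z
  push_cast
  rfl

theorem ae_of_pet_self (hw : IsWt Γ h) {f : ℍ → ℂ} (hf : IsBd f)
    (h0 : pet h 2 f f = 0) : ∀ᵐ z : ℍ, h z ≠ 0 → f z = 0 := by
  have hint := pet_integrable hw hf hf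
  simp only [petersson_self] at hint
  have hint2 : Integrable fun z : ℍ => (h z).toReal * (‖f z‖ ^ 2 * z.im ^ 2) := by
    have := hint.re
    refine this.congr ?_
    filter_upwards with z
    rw [← Complex.ofReal_mul]
    rfl
  rw [pet_self, Complex.ofReal_eq_zero, integral_eq_zero_iff_of_nonneg (fun z => by positivity)
    hint2] at h0
  filter_upwards [h0] with z hz hhz
  simp only [Pi.zero_apply, mul_eq_zero, ENNReal.toReal_eq_zero_iff, hhz, hw.ne_top z, or_self,
    false_or, pow_eq_zero_iff, ne_eq, OfNat.ofNat_ne_zero, not_false_eq_true, norm_eq_zero,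
    z.im_ne_zero, or_false] at hz
  exact hz

theorem pet_self_eq_zero [Countable Γ] (hw : IsWt Γ h) {f : ℍ → ℂ} (hf : IsBd f)
    (hinv : ∀ γ ∈ Γ, ∀ z, f (γ • z) = 0 → f z = 0) (h0 : pet h 2 f f = 0) : f = 0 := by
  have h1 := ae_of_pet_self hw hf h0
  have h2 : ∀ᵐ z : ℍ, ∀ γ : Γ, h ((γ : GL (Fin 2) ℝ) • z) ≠ 0 → f ((γ : GL (Fin 2) ℝ) • z) = 0 := by
    rw [ae_all_iff]
    intro γ
    exact (measurePreserving_smul (γ : GL (Fin 2) ℝ) (volume : Measure ℍ)).quasiMeasurePreserving.ae h1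
  apply eq_zero_of_ae hf.1
  filter_upwards [h2] with z hz
  obtain ⟨γ, hγ⟩ : ∃ γ : Γ, h ((γ : GL (Fin 2) ℝ) • z) ≠ 0 := by
    by_contra hcon
    push Not at hcon
    have := hw.sum_eq z
    simp only [hcon, tsum_zero] at this
    exact zero_ne_one this
  exact hinv γ γ.2 z (hz γ hγ)

/-! ### The Petersson product on `S₂(Γ₀(N))` -/

variable {N : ℕ} [NeZero N]

/-- Petersson product. -/
def ip (f g : CuspForm (Gamma0 N) 2) : ℂ := pet (wtG (Gamma0 N)) 2 f g

theorem isBd_cuspForm (f : CuspForm (Gamma0 N) 2) : IsBd f := isBd_of_cf (IsCF.of_cuspForm f)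

theorem isWt : IsWt (G0 N) (wtG (Gamma0 N)) := wtG_isWt (Gamma0 N)

theorem ip_add_left (f f' g : CuspForm (Gamma0 N) 2) : ip (f + f') g = ip f g + ip f' g :=
  pet_add_left isWt (isBd_cuspForm f) (isBd_cuspForm f') (isBd_cuspForm g)

theorem ip_add_right (f g g' : CuspForm (Gamma0 N) 2) : ip f (g + g') = ip f g + ip f g' :=
  pet_add_right isWt (isBd_cuspForm f) (isBd_cuspForm g) (isBd_cuspForm g')

omit [NeZero N] in
theorem ip_symm (f g : CuspForm (Gamma0 N) 2) : ip g f = conj (ip f g) := pet_symm _ _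

omit [NeZero N] in
theorem ip_smul_left (c : ℂ) (f g : CuspForm (Gamma0 N) 2) : ip (c • f) g = conj c * ip f g :=
  pet_smul_left c f g

omit [NeZero N] in
theorem ip_smul_right (c : ℂ) (f g : CuspForm (Gamma0 N) 2) : ip f (c • g) = c * ip f g :=
  pet_smul_right c f g

theorem ip_self_eq_zero {f : CuspForm (Gamma0 N) 2} (h0 : ip f f = 0) : f = 0 := by
  have h1 := pet_self_eq_zero isWt (isBd_cuspForm f) (by
    intro γ hγ z hz
    have h2 := G0_le_stab (IsCF.of_cuspForm f) hγ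
    rw [mem_stab] at h2
    have h3 : 0 < (γ.det : ℝ) := by
      obtain ⟨a, b, c, d, h⟩ := mem_G0_iff_Dset.mp hγ
      exact (det_pos_of_Dset one_pos h).2
    rw [← h2, ModularForm.slash_def, sigma_of_det_pos h3]
    change f (γ • z) * _ * _ = 0
    rw [hz, zero_mul, zero_mul]) h0
  exact DFunLike.coe_injective h1

theorem ip_zero_left (g : CuspForm (Gamma0 N) 2) : ip 0 g = 0 := by
  have := ip_smul_left 0 0 g
  simpa using this

theorem ip_zero_right (g : CuspForm (Gamma0 N) 2) : ip g 0 = 0 := by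
  have := ip_smul_right 0 g 0
  simpa using this

theorem ip_neg_left (f g : CuspForm (Gamma0 N) 2) : ip (-f) g = - ip f g := by
  have := ip_smul_left (-1) f g
  simpa using this

theorem ip_neg_right (f g : CuspForm (Gamma0 N) 2) : ip f (-g) = - ip f g := by
  have := ip_smul_right (-1) f g
  simpa using this

theorem ip_sub_left (f f' g : CuspForm (Gamma0 N) 2) : ip (f - f') g = ip f g - ip f' g := by
  rw [sub_eq_add_neg, ip_add_left, ip_neg_left, sub_eq_add_neg]

theorem ip_sub_right (f g g' : CuspForm (Gamma0 N) 2) : ip f (g - g') = ip f g - ip f g' := by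
  rw [sub_eq_add_neg, ip_add_right, ip_neg_right, sub_eq_add_neg]

theorem ip_heckeTLin {ℓ : ℕ} (hℓ : ℓ.Prime) (hℓN : ¬ ℓ ∣ N) (f g : CuspForm (Gamma0 N) 2) :
    ip (CuspForm.heckeTLin 2 hℓ hℓN f) g = ip f (CuspForm.heckeTLin 2 hℓ hℓN g) :=
  pet_heckeT isWt hℓ hℓN (IsCF.of_cuspForm f) (IsCF.of_cuspForm g)

/-- Symmetric operators for the Petersson product. -/
def IsSym (T : Module.End ℂ (CuspForm (Gamma0 N) 2)) : Prop := ∀ f g, ip (T f) g = ip f (T g)

theorem isSym_of_mem {S : Set ℕ} (hS : ∀ q : ℕ, q.Prime → q ∣ N → q ∈ S)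
    {T : Module.End ℂ (CuspForm (Gamma0 N) 2)} (hT : T ∈ heckeAlgebra N 2 S) : IsSym T := by
  have hcomm : ∀ x ∈ heckeAlgebra N 2 S, ∀ y ∈ heckeAlgebra N 2 S, x * y = y * x := fun x hx y hy =>
    congrArg Subtype.val (mul_comm (⟨x, hx⟩ : heckeAlgebra N 2 S) ⟨y, hy⟩)
  have key : T ∈ heckeAlgebra N 2 S ∧ IsSym T := by
    refine Algebra.adjoin_induction (p := fun T _ => T ∈ heckeAlgebra N 2 S ∧ IsSym T)
      ?_ ?_ ?_ ?_ hT
    · rintro x hx
      refine ⟨Algebra.subset_adjoin hx, ?_⟩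
      rcases hx with ⟨ℓ, hℓ, hℓN, hℓS, rfl⟩ | ⟨q, hqN, hq, hqS, rfl⟩
      · exact fun f g => ip_heckeTLin hℓ hℓN f g
      · exact absurd (hS q hq hqN) hqS
    · intro r
      refine ⟨Subalgebra.algebraMap_mem _ r, fun f g => ?_⟩
      have h1 : ∀ f : CuspForm (Gamma0 N) 2,
          (algebraMap ℤ (Module.End ℂ (CuspForm (Gamma0 N) 2)) r) f = (r : ℂ) • f := by
        intro f
        rw [Algebra.algebraMap_eq_smul_one, LinearMap.smul_apply, Module.End.one_apply,
          Int.cast_smul_eq_zsmul]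
      rw [h1, h1, ip_smul_left, ip_smul_right]
      congr 1
      exact Complex.conj_ofReal r
    · rintro x y _ _ ⟨hx, hx'⟩ ⟨hy, hy'⟩
      refine ⟨Subalgebra.add_mem _ hx hy, fun f g => ?_⟩
      rw [LinearMap.add_apply, LinearMap.add_apply, ip_add_left, ip_add_right, hx' f g, hy' f g]
    · rintro x y _ _ ⟨hx, hx'⟩ ⟨hy, hy'⟩
      refine ⟨Subalgebra.mul_mem _ hx hy, fun f g => ?_⟩
      rw [Module.End.mul_apply, hx', hy', ← Module.End.mul_apply, hcomm x hx y hy]
  exact key.2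

theorem IsSym.eq_zero_of_sq {T : Module.End ℂ (CuspForm (Gamma0 N) 2)} (hT : IsSym T)
    (h2 : T * T = 0) : T = 0 := by
  apply LinearMap.ext
  intro f
  apply ip_self_eq_zero
  rw [hT, ← Module.End.mul_apply, h2, LinearMap.zero_apply, ip_zero_right]

/-- **The anemic Hecke algebra is reduced.** -/
theorem isReduced_heckeAlgebra {S : Set ℕ} (hS : ∀ q : ℕ, q.Prime → q ∣ N → q ∈ S) :
    IsReduced (heckeAlgebra N 2 S) := by
  rw [isReduced_iff_pow_one_lt 2 one_lt_two]
  intro x hx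
  apply Subtype.ext
  apply (isSym_of_mem hS x.2).eq_zero_of_sq
  have := congrArg Subtype.val hx
  rw [sq] at this
  exact this

/-! ### Diagonalizability -/

theorem IsSym.conj_eq {T : Module.End ℂ (CuspForm (Gamma0 N) 2)} (hT : IsSym T) {μ : ℂ}
    {f : CuspForm (Gamma0 N) 2} (hf : f ≠ 0) (h : T f = μ • f) : conj μ = μ := by
  have h1 := hT f f
  rw [h, ip_smul_left, ip_smul_right] at h1
  exact mul_right_cancel₀ (fun h0 => hf (ip_self_eq_zero h0)) h1

theorem IsSym.eq_zero_of_sub_sq {T : Module.End ℂ (CuspForm (Gamma0 N) 2)} (hT : IsSym T) {μ : ℂ}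
    {f : CuspForm (Gamma0 N) 2} (h : (T - μ • (1 : Module.End ℂ (CuspForm (Gamma0 N) 2)))
      ((T - μ • (1 : Module.End ℂ (CuspForm (Gamma0 N) 2))) f) = 0) :
    (T - μ • (1 : Module.End ℂ (CuspForm (Gamma0 N) 2))) f = 0 := by
  set g := (T - μ • (1 : Module.End ℂ (CuspForm (Gamma0 N) 2))) f with hg
  by_contra hne
  have h1 : T g = μ • g := by
    have := h
    rwa [LinearMap.sub_apply, LinearMap.smul_apply, Module.End.one_apply, sub_eq_zero] at this
  have h2 := hT.conj_eq hne h1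
  apply hne
  apply ip_self_eq_zero
  have h3 : g = T f - μ • f := by
    rw [hg, LinearMap.sub_apply, LinearMap.smul_apply, Module.End.one_apply]
  have h4 : ip g g = ip (T f - μ • f) g := congrArg (fun x => ip x g) h3
  rw [h4, ip_sub_left, hT, h1, ip_smul_left, ip_smul_right, h2, sub_self]

theorem IsSym.maxGenEigenspace_eq {T : Module.End ℂ (CuspForm (Gamma0 N) 2)} (hT : IsSym T)
    (μ : ℂ) : T.maxGenEigenspace μ = T.eigenspace μ := by
  apply le_antisymm
  · intro f hf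
    rw [Module.End.mem_maxGenEigenspace] at hf
    obtain ⟨k, hk⟩ := hf
    rw [Module.End.mem_eigenspace_iff]
    induction k with
    | zero =>
      rw [pow_zero, Module.End.one_apply] at hk
      rw [hk, map_zero, smul_zero]
    | succ n ih =>
      rcases n with _ | n
      · rw [zero_add, pow_one, LinearMap.sub_apply, LinearMap.smul_apply, Module.End.one_apply,
          sub_eq_zero] at hk
        exact hk
      · apply ih
        rw [pow_succ', pow_succ', Module.End.mul_apply, Module.End.mul_apply] at hk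
        rw [pow_succ', Module.End.mul_apply]
        exact hT.eq_zero_of_sub_sq hk
  · intro f hf
    rw [Module.End.mem_eigenspace_iff] at hf
    rw [Module.End.mem_maxGenEigenspace]
    exact ⟨1, by rw [pow_one, LinearMap.sub_apply, LinearMap.smul_apply, Module.End.one_apply,
      hf, sub_self]⟩

theorem isSym_hOp {ℓ : Nat.Primes} (hℓ : ¬ (ℓ : ℕ) ∣ N) : IsSym (hOp N ℓ) := by
  rw [hOp_of_not_dvd hℓ]
  exact fun f g => ip_heckeTLin _ _ f g

/-- Simultaneous diagonalization of the operators `T_ℓ`, `ℓ ∤ N`. -/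
theorem iSup_iInf_eigenspace (P : Nat.Primes → Prop) (hP : ∀ ℓ, P ℓ → ¬ (ℓ : ℕ) ∣ N) :
    ⨆ χ : {ℓ // P ℓ} → ℂ, ⨅ ℓ : {ℓ // P ℓ}, (hOp N ℓ.1).eigenspace (χ ℓ) = ⊤ := by
  have h1 := Module.End.iSup_iInf_maxGenEigenspace_eq_top_of_iSup_maxGenEigenspace_eq_top_of_commute
    (fun ℓ : {ℓ // P ℓ} => hOp N ℓ.1) (fun i j _ => hOp_comm i.1 j.1)
    (fun ℓ => Module.End.iSup_maxGenEigenspace_eq_top _)
  rw [← h1]
  refine iSup_congr fun χ => iInf_congr fun ℓ => ?_
  exact ((isSym_hOp (hP ℓ.1 ℓ.2)).maxGenEigenspace_eq _).symm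

end Fermat.Agent.Petersson
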